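import Mathlib
import Fermat.Agent.S17.Pts.Eval
import Fermat.Agent.S17.Interfaces
import Fermat.Agent.MU.Lib.RR.OfModularBar

section MergeWrap_S17_Pts_Galois -- from S17/Pts/Galois.lean

/-!
# S17 / package H, seat PTS (helper19): Galois equivariance of the value map

* generic: `Pts.congAt_smul`, `Pts.ev_smul` for any `g : SemilinearAut K F`:
  `ev (g • P) (g • f) = baseAut g (ev P f)` (for ALL `f`, poles included);
* modular: `Pts.evBar N P f := ev P f` over `modularFunctionFieldBar N`, with
  `Pts.evBar_galois : evBar N (σ • P) (σ • f) = σ (evBar N P f)` where `σ •` is the action of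
  `arithmeticGalois (modularFunctionFieldFull N) σ`.
-/

set_option autoImplicit false

noncomputable section

open AlgebraicCurve ModularCurve

namespace Fermat.Agent.S17.Pts

open Fermat.Agent.RR

section Generic

variable {K F : Type*} [Field K] [Field F] [Algebra K F]

theorem congAt_smul (g : SemilinearAut K F) {P : Place K F} {f : F} {c : K}
    (h : CongAt P f c) : CongAt (g • P) (g • f) (SemilinearAut.baseAut g c) := by
  rcases h with h | h
  · left
    rw [h, SemilinearAut.smul_algebraMap]
  · right
    have h1 : g • f - algebraMap K F (SemilinearAut.baseAut g c)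
        = g • (f - algebraMap K F c) := by
      rw [smul_sub, SemilinearAut.smul_algebraMap]
    rw [h1, SemilinearAut.ord_smul]
    exact h

theorem congAt_smul_iff (g : SemilinearAut K F) {P : Place K F} {f : F} {c : K} :
    CongAt (g • P) (g • f) (SemilinearAut.baseAut g c) ↔ CongAt P f c := by
  refine ⟨fun h => ?_, congAt_smul g⟩
  have h2 := congAt_smul g⁻¹ h
  rw [inv_smul_smul, inv_smul_smul] at h2
  have h3 : SemilinearAut.baseAut g⁻¹ (SemilinearAut.baseAut g c) = c := by
    rw [SemilinearAut.baseAut_inv]
    exact (SemilinearAut.baseAut g).symm_apply_apply c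
  rwa [h3] at h2

/-- **Equivariance of the value map** (all `f`, poles included). -/
theorem ev_smul (h : IsRRField K F) (g : SemilinearAut K F) (P : Place K F) (f : F) :
    ev (g • P) (g • f) = SemilinearAut.baseAut g (ev P f) := by
  by_cases hf : 0 ≤ P.ord f
  · exact ev_eq_of_congAt (congAt_smul g (congAt_ev h P hf))
  · have hf' : P.ord f < 0 := not_le.mp hf
    have hg : (g • P).ord (g • f) < 0 := by rwa [SemilinearAut.ord_smul]
    rw [ev_of_ord_neg hg, ev_of_ord_neg hf', map_zero]

/-- the value of a `g`-fixed function at `g • P`. -/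
theorem ev_smul_of_fixed (h : IsRRField K F) (g : SemilinearAut K F) (P : Place K F) {f : F}
    (hf : g • f = f) : ev (g • P) f = SemilinearAut.baseAut g (ev P f) := by
  have := ev_smul h g P f
  rwa [hf] at this

theorem ord_smul_of_fixed (g : SemilinearAut K F) (P : Place K F) {f : F}
    (hf : g • f = f) : (g • P).ord f = P.ord f := by
  have := SemilinearAut.ord_smul g P f
  rwa [hf] at this

end Generic

section Modular

variable (N : ℕ)

/-- the Galois action on the places of `X₀(N)` over `ℚ̄`. -/
def galPlace (σ : GQ) (P : Place (AlgebraicClosure ℚ) (modularFunctionFieldBar N)) :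
    Place (AlgebraicClosure ℚ) (modularFunctionFieldBar N) :=
  arithmeticGalois (modularFunctionFieldFull N) σ • P

/-- the Galois action on the functions of `X₀(N)` over `ℚ̄` (coefficientwise). -/
def galFun (σ : GQ) (f : modularFunctionFieldBar N) : modularFunctionFieldBar N :=
  arithmeticGalois (modularFunctionFieldFull N) σ • f

/-- the value of a modular function at a place of `X₀(N)` over `ℚ̄` (junk `0` at poles). -/
def evBar (P : Place (AlgebraicClosure ℚ) (modularFunctionFieldBar N))
    (f : modularFunctionFieldBar N) : AlgebraicClosure ℚ :=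
  ev P f

theorem galPlace_one (P : Place (AlgebraicClosure ℚ) (modularFunctionFieldBar N)) :
    galPlace N 1 P = P := by
  unfold galPlace
  rw [map_one, one_smul]

theorem galPlace_mul (σ τ : GQ) (P : Place (AlgebraicClosure ℚ) (modularFunctionFieldBar N)) :
    galPlace N (σ * τ) P = galPlace N σ (galPlace N τ P) := by
  unfold galPlace
  rw [map_mul, mul_smul]

theorem galFun_one (f : modularFunctionFieldBar N) : galFun N 1 f = f := by
  unfold galFun
  rw [map_one, one_smul]

theorem galFun_mul (σ τ : GQ) (f : modularFunctionFieldBar N) :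
    galFun N (σ * τ) f = galFun N σ (galFun N τ f) := by
  unfold galFun
  rw [map_mul, mul_smul]

theorem coe_galFun (σ : GQ) (f : modularFunctionFieldBar N) :
    ((galFun N σ f : modularFunctionFieldBar N) : LaurentSeries (AlgebraicClosure ℚ))
      = coeffMap (σ : AlgebraicClosure ℚ →+* AlgebraicClosure ℚ)
          (f : LaurentSeries (AlgebraicClosure ℚ)) :=
  rfl

theorem galFun_algebraMap (σ : GQ) (c : AlgebraicClosure ℚ) :
    galFun N σ (algebraMap (AlgebraicClosure ℚ) (modularFunctionFieldBar N) c)
      = algebraMap (AlgebraicClosure ℚ) (modularFunctionFieldBar N) (σ c) :=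
  SemilinearAut.smul_algebraMap _ c

theorem ord_galPlace_galFun (σ : GQ)
    (P : Place (AlgebraicClosure ℚ) (modularFunctionFieldBar N))
    (f : modularFunctionFieldBar N) :
    (galPlace N σ P).ord (galFun N σ f) = P.ord f :=
  SemilinearAut.ord_smul _ P f

/-- **Galois equivariance of the value map on `X₀(N)`**:
`ev (σ • P) (σ • f) = σ (ev P f)`. -/
theorem evBar_galois [NeZero N] (σ : GQ) (P : Place (AlgebraicClosure ℚ) (modularFunctionFieldBar N))
    (f : modularFunctionFieldBar N) :
    evBar N (galPlace N σ P) (galFun N σ f) = σ (evBar N P f) :=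
  ev_smul (Fermat.Agent.RRMod.isRRField_bar N) _ P f

/-- the characterisation of the value: for `0 ≤ P.ord f`,
`evBar N P f = c ↔ f = c ∨ 0 < P.ord (f - c)`. -/
theorem evBar_eq_iff [NeZero N] (P : Place (AlgebraicClosure ℚ) (modularFunctionFieldBar N))
    {f : modularFunctionFieldBar N} (hf : 0 ≤ P.ord f) (c : AlgebraicClosure ℚ) :
    evBar N P f = c ↔
      (f = algebraMap (AlgebraicClosure ℚ) (modularFunctionFieldBar N) c ∨
        0 < P.ord (f - algebraMap (AlgebraicClosure ℚ) (modularFunctionFieldBar N) c)) :=
  ev_eq_iff (Fermat.Agent.RRMod.isRRField_bar N) P hf c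

end Modular

end Fermat.Agent.S17.Pts
end
end MergeWrap_S17_Pts_Galois
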